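import Mathlib
import Fermat.Agent.LT.H751.JointSpec

/-!
# Row LT, tower T2, leaf T2.08 (registry 872): the abstract spectral theorem (helper781)

OFF-MAIN.  Mathlib + the pre-freeze asset `Fermat/Agent/LT/H751/JointSpec.lean` (helper751,
byte-identical copy, sha256 edd7ffca...).  No definitions beyond the auxiliary operators below.

`abstractSpectral781` is the statement of `Fermat.Agent.LT.T2.AbstractSpectral` (helper130,
`LT/T2/Spec.lean`) written out; `LT/T2/H781/Leaf08.lean` instantiates `T2.Leaf08` with it.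

Proof.  `H` = the completion of the pre-Hilbert space `V`.
* every operator of the family extends to `H` (`ext781`); the extensions commute and the
  extension of an adjoint is the adjoint (`ext781_mul`, `ext781_adjoint`);
* the Hilbert--Schmidt bound on the finite orthonormal families OF `V` gives, for every `ε > 0`,
  a finite orthonormal family of `V` off which the operator has norm `≤ ε`
  (`exists_orthonormal_small781`: otherwise an orthonormal sequence with `‖A x_i‖ > ε`); hence
  the extension is a norm limit of finite-rank operators, so it is compact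
  (`isCompactOperator_ext781`);
* the common kernel in `H` of the compact operators is `0`: they are normal, so the kernel is
  orthogonal to the ranges, and the ranges approximate every vector of `V`;
* `exists_hilbertBasis_joint_eigen751` (helper751) gives a Hilbert basis of joint eigenvectors
  of `H`; each of them is `c⁻¹ A b` with `A` compact of the family, `c ≠ 0`, hence lies in `V`
  by regularity; Parseval in `H` restricts to `V`.
-/

set_option autoImplicit false

namespace Fermat.Agent.LT.T2.H781

open UniformSpace ContinuousLinearMap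

noncomputable section

variable {V : Type*} [NormedAddCommGroup V] [InnerProductSpace ℂ V]

/-- The embedding of `V` into its completion. -/
def emb781 (V : Type*) [NormedAddCommGroup V] [InnerProductSpace ℂ V] :
    V →L[ℂ] Completion V := Completion.toComplL

theorem emb781_apply (x : V) : emb781 V x = (x : Completion V) := rfl

theorem emb781_dense : DenseRange (emb781 V) := Completion.denseRange_coe

theorem emb781_unif : IsUniformInducing (emb781 V) := Completion.isUniformInducing_coe V

/-- The extension of a bounded operator of `V` to the completion. -/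
def ext781 (A : V →L[ℂ] V) : Completion V →L[ℂ] Completion V :=
  ((emb781 V).comp A).extend (emb781 V)

theorem ext781_coe (A : V →L[ℂ] V) (x : V) :
    ext781 A (x : Completion V) = ((A x : V) : Completion V) := by
  have h := ContinuousLinearMap.extend_eq ((emb781 V).comp A) emb781_dense emb781_unif x
  simpa [emb781_apply, ext781] using h

theorem ext781_mul (A B : V →L[ℂ] V) (h : ∀ x, A (B x) = B (A x)) :
    ext781 A * ext781 B = ext781 B * ext781 A := by
  ext x
  induction x using Completion.induction_on with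
  | hp => exact isClosed_eq (by fun_prop) (by fun_prop)
  | ih a => simp [ext781_coe, h]

theorem ext781_inner (A B : V →L[ℂ] V) (h : ∀ x y, inner ℂ (A x) y = inner ℂ x (B y))
    (x y : Completion V) : inner ℂ (ext781 A x) y = inner ℂ x (ext781 B y) := by
  induction x, y using Completion.induction_on₂ with
  | hp =>
    exact isClosed_eq
      (Completion.Continuous.inner ((ext781 A).continuous.comp continuous_fst) continuous_snd)
      (Completion.Continuous.inner continuous_fst ((ext781 B).continuous.comp continuous_snd))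
  | ih a b => simp [ext781_coe, Completion.inner_coe, h]

theorem ext781_adjoint (A B : V →L[ℂ] V) (h : ∀ x y, inner ℂ (A x) y = inner ℂ x (B y)) :
    adjoint (ext781 A) = ext781 B := by
  symm
  rw [ContinuousLinearMap.eq_adjoint_iff]
  intro x y
  have := ext781_inner A B h y x
  rw [← inner_conj_symm, ← this, inner_conj_symm]

/-! ## Compactness from the Hilbert--Schmidt bound on `V` -/

/-- Adding a unit vector orthogonal to an orthonormal family. -/
theorem orthonormal_cons781 {n : ℕ} {x : Fin n → V} (hx : Orthonormal ℂ x) {u : V}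
    (hu : ‖u‖ = 1) (hux : ∀ i, inner ℂ (x i) u = 0) :
    Orthonormal ℂ (Fin.cons u x : Fin (n + 1) → V) := by
  rw [orthonormal_iff_ite] at hx ⊢
  intro i j
  refine Fin.cases ?_ (fun i' => ?_) i <;> refine Fin.cases ?_ (fun j' => ?_) j
  · simp [inner_self_eq_norm_sq_to_K, hu]
  · have h0 : (0 : Fin (n + 1)) ≠ j'.succ := (Fin.succ_ne_zero j').symm
    rw [if_neg h0, Fin.cons_zero, Fin.cons_succ, ← inner_conj_symm, hux j', map_zero]
  · rw [if_neg (Fin.succ_ne_zero i'), Fin.cons_zero, Fin.cons_succ, hux i']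
  · rw [Fin.cons_succ, Fin.cons_succ, hx i' j']
    simp [Fin.succ_inj]

/-- Off a suitable finite orthonormal family, a Hilbert--Schmidt operator is small. -/
theorem exists_orthonormal_small781 (A : V →ₗ[ℂ] V) (C : ℝ)
    (hHS : ∀ (n : ℕ) (x : Fin n → V), Orthonormal ℂ x → ∑ i, ‖A (x i)‖ ^ 2 ≤ C)
    {ε : ℝ} (hε : 0 < ε) :
    ∃ (n : ℕ) (x : Fin n → V), Orthonormal ℂ x ∧
      ∀ y : V, (∀ i, inner ℂ (x i) y = 0) → ‖A y‖ ≤ ε * ‖y‖ := by
  by_contra hcon
  push Not at hcon
  have key : ∀ n : ℕ, ∃ x : Fin n → V, Orthonormal ℂ x ∧ ∀ i, ε < ‖A (x i)‖ := by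
    intro n
    induction n with
    | zero =>
      refine ⟨Fin.elim0, ?_, fun i => i.elim0⟩
      rw [orthonormal_iff_ite]
      exact fun i => i.elim0
    | succ n ih =>
      obtain ⟨x, hx, hxε⟩ := ih
      obtain ⟨y, hy, hyε⟩ := hcon n x hx
      have hy0 : y ≠ 0 := by
        rintro rfl
        simp at hyε
      have hypos : 0 < ‖y‖ := norm_pos_iff.2 hy0
      set u : V := ((‖y‖ : ℂ)⁻¹) • y with hu
      have hun : ‖u‖ = 1 := by
        rw [hu, norm_smul, norm_inv, Complex.norm_real, norm_norm, inv_mul_cancel₀ hypos.ne']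
      have hux : ∀ i, inner ℂ (x i) u = 0 := by
        intro i
        rw [hu, inner_smul_right, hy i, mul_zero]
      have huε : ε < ‖A u‖ := by
        rw [hu, map_smul, norm_smul, norm_inv, Complex.norm_real, norm_norm,
          lt_inv_mul_iff₀ hypos]
        linarith [mul_comm ε ‖y‖]
      refine ⟨Fin.cons u x, orthonormal_cons781 hx hun hux, fun i => ?_⟩
      refine Fin.cases ?_ (fun i' => ?_) i
      · simpa using huε
      · simpa using hxε i'
  obtain ⟨n, hn⟩ := exists_nat_gt (C / ε ^ 2)
  obtain ⟨x, hx, hxε⟩ := key n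
  have h1 := hHS n x hx
  have h2 : (n : ℝ) * ε ^ 2 ≤ ∑ i, ‖A (x i)‖ ^ 2 := by
    calc (n : ℝ) * ε ^ 2 = ∑ _i : Fin n, ε ^ 2 := by simp
      _ ≤ ∑ i, ‖A (x i)‖ ^ 2 := Finset.sum_le_sum fun i _ =>
          pow_le_pow_left₀ hε.le (hxε i).le 2
  have h3 : C < n * ε ^ 2 := by
    rwa [div_lt_iff₀ (by positivity)] at hn
  linarith

/-- The component of `v` orthogonal to a finite orthonormal family. -/
theorem orth_part781 {n : ℕ} {x : Fin n → V} (hx : Orthonormal ℂ x) (v : V) :
    (∀ j, inner ℂ (x j) (v - ∑ i, inner ℂ (x i) v • x i) = 0) ∧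
      ‖v - ∑ i, inner ℂ (x i) v • x i‖ ≤ ‖v‖ := by
  classical
  set p : V := ∑ i, inner ℂ (x i) v • x i with hp
  have h1 : ∀ j, inner ℂ (x j) (v - p) = 0 := by
    intro j
    rw [inner_sub_right, hp, hx.inner_right_fintype, sub_self]
  refine ⟨h1, ?_⟩
  have h2 : inner ℂ (v - p) p = 0 := by
    have key : ∀ w : V, (∀ j, inner ℂ (x j) w = 0) →
        inner ℂ w (∑ i, inner ℂ (x i) v • x i) = 0 := by
      intro w hw
      rw [inner_sum]
      refine Finset.sum_eq_zero fun i _ => ?_
      have h0 : inner ℂ w (x i) = 0 := by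
        rw [← inner_conj_symm, hw i, map_zero]
      rw [inner_smul_right, h0, mul_zero]
    exact key _ h1
  have h3 : ‖v‖ * ‖v‖ = ‖v - p‖ * ‖v - p‖ + ‖p‖ * ‖p‖ := by
    have := norm_add_sq_eq_norm_sq_add_norm_sq_of_inner_eq_zero (v - p) p h2
    rwa [sub_add_cancel] at this
  nlinarith [norm_nonneg v, norm_nonneg (v - p), norm_nonneg p]

/-- A rank-one operator is compact. -/
theorem isCompactOperator_rankOne781 {H : Type*} [NormedAddCommGroup H] [InnerProductSpace ℂ H]
    (v w : H) : IsCompactOperator ((innerSL ℂ v).smulRight w : H →L[ℂ] H) := by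
  have h1 : IsCompactOperator (innerSL ℂ v : H →L[ℂ] ℂ) :=
    isCompactOperator_of_locallyCompactSpace_dom (innerSL ℂ v)
  have h2 := h1.clm_comp ((ContinuousLinearMap.id ℂ ℂ).smulRight w : ℂ →L[ℂ] H)
  have h3 : (((ContinuousLinearMap.id ℂ ℂ).smulRight w : ℂ →L[ℂ] H) ∘ (innerSL ℂ v : H →L[ℂ] ℂ))
      = ((innerSL ℂ v).smulRight w : H →L[ℂ] H) := by
    funext x
    simp
  rw [← h3]
  exact h2

/-- The finite-rank operator `z ↦ ∑ i, ⟪x i, z⟫ • w i`. -/
def finRank781 {H : Type*} [NormedAddCommGroup H] [InnerProductSpace ℂ H] {n : ℕ}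
    (x w : Fin n → H) : H →L[ℂ] H :=
  ∑ i, (innerSL ℂ (x i)).smulRight (w i)

theorem finRank781_apply {H : Type*} [NormedAddCommGroup H] [InnerProductSpace ℂ H] {n : ℕ}
    (x w : Fin n → H) (z : H) : finRank781 x w z = ∑ i, inner ℂ (x i) z • w i := by
  simp [finRank781]

theorem isCompactOperator_finRank781 {H : Type*} [NormedAddCommGroup H] [InnerProductSpace ℂ H]
    {n : ℕ} (x w : Fin n → H) : IsCompactOperator (finRank781 x w) := by
  classical
  have key : ∀ s : Finset (Fin n),
      IsCompactOperator (∑ i ∈ s, (innerSL ℂ (x i)).smulRight (w i) : H →L[ℂ] H) := by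
    intro s
    induction s using Finset.induction_on with
    | empty =>
      rw [Finset.sum_empty]
      exact isCompactOperator_zero
    | insert a s ha ih =>
      rw [Finset.sum_insert ha]
      have := (isCompactOperator_rankOne781 (x a) (w a)).add ih
      simpa using this
  exact key Finset.univ

/-- **Compactness.**  The extension to the completion of an operator of `V` which satisfies the
Hilbert--Schmidt bound on the finite orthonormal families OF `V` is compact. -/
theorem isCompactOperator_ext781 (A : V →L[ℂ] V) (C : ℝ)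
    (hHS : ∀ (n : ℕ) (x : Fin n → V), Orthonormal ℂ x → ∑ i, ‖A (x i)‖ ^ 2 ≤ C) :
    IsCompactOperator (ext781 A) := by
  have hcl : IsClosed {f : Completion V →L[ℂ] Completion V | IsCompactOperator f} :=
    isClosed_setOfPred_isCompactOperator
  have hmem : ext781 A ∈ closure {f : Completion V →L[ℂ] Completion V | IsCompactOperator f} := by
    rw [Metric.mem_closure_iff]
    intro ε hε
    obtain ⟨n, x, hx, hsmall⟩ :=
      exists_orthonormal_small781 (A : V →ₗ[ℂ] V) C hHS (half_pos hε)
    refine ⟨finRank781 (fun i => ((x i : V) : Completion V))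
      (fun i => ((A (x i) : V) : Completion V)), isCompactOperator_finRank781 _ _, ?_⟩
    rw [dist_eq_norm]
    refine lt_of_le_of_lt (ContinuousLinearMap.opNorm_le_bound _ (half_pos hε).le ?_)
      (half_lt_self hε)
    intro z
    induction z using Completion.induction_on with
    | hp =>
      exact isClosed_le (by fun_prop) (by fun_prop)
    | ih v =>
      obtain ⟨h1, h2⟩ := orth_part781 hx v
      have h3 : (ext781 A - finRank781 (fun i => ((x i : V) : Completion V))
          (fun i => ((A (x i) : V) : Completion V))) (v : Completion V)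
          = ((A (v - ∑ i, inner ℂ (x i) v • x i) : V) : Completion V) := by
        have hsum : ((∑ i, A (inner ℂ (x i) v • x i) : V) : Completion V)
            = ∑ i, ((A (inner ℂ (x i) v • x i) : V) : Completion V) :=
          map_sum (emb781 V) _ _
        rw [sub_apply, ext781_coe, finRank781_apply, map_sub, map_sum,
          Completion.coe_sub, hsum]
        congr 1
        refine Finset.sum_congr rfl fun i _ => ?_
        rw [Completion.inner_coe, map_smul, Completion.coe_smul]
      rw [h3, Completion.norm_coe, Completion.norm_coe]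
      calc ‖A (v - ∑ i, inner ℂ (x i) v • x i)‖
          ≤ ε / 2 * ‖v - ∑ i, inner ℂ (x i) v • x i‖ := hsmall _ h1
        _ ≤ ε / 2 * ‖v‖ := by gcongr
  exact hcl.closure_subset hmem

/-! ## From linear maps with a bound to bounded operators -/

open Classical in
/-- The bounded operator of a linear map which has a bound (and `0` otherwise). -/
def toC781 (A : V →ₗ[ℂ] V) : V →L[ℂ] V :=
  if h : ∃ C : ℝ, ∀ x : V, ‖A x‖ ≤ C * ‖x‖ then A.mkContinuous h.choose h.choose_spec else 0

theorem toC781_apply {A : V →ₗ[ℂ] V} (h : ∃ C : ℝ, ∀ x : V, ‖A x‖ ≤ C * ‖x‖) (x : V) :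
    toC781 A x = A x := by
  rw [toC781, dif_pos h]
  rfl

/-- The operator of the completion attached to a linear map of `V`. -/
def op781 (A : V →ₗ[ℂ] V) : Completion V →L[ℂ] Completion V := ext781 (toC781 A)

theorem op781_coe {A : V →ₗ[ℂ] V} (h : ∃ C : ℝ, ∀ x : V, ‖A x‖ ≤ C * ‖x‖) (x : V) :
    op781 A (x : Completion V) = ((A x : V) : Completion V) := by
  rw [op781, ext781_coe, toC781_apply h]

/-- A vector of the completion which is orthogonal to `V` is zero. -/
theorem eq_zero_of_orth781 (z : Completion V)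
    (h : ∀ v : V, inner ℂ z (v : Completion V) = 0) : z = 0 := by
  have h1 : ∀ w : Completion V, inner ℂ z w = 0 := by
    intro w
    induction w using Completion.induction_on with
    | hp =>
      have hc : Continuous fun w : Completion V => inner ℂ z w :=
        Completion.Continuous.inner continuous_const continuous_id
      exact isClosed_eq hc continuous_const
    | ih v => exact h v
  exact inner_self_eq_zero.1 (h1 z)

omit [InnerProductSpace ℂ V] in
/-- Every vector of the completion is the limit of a Cauchy sequence of `V`. -/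
theorem exists_seq781 (z : Completion V) :
    ∃ v : ℕ → V, CauchySeq v ∧
      Filter.Tendsto (fun k => ((v k : V) : Completion V)) Filter.atTop (nhds z) := by
  have hz : z ∈ closure (Set.range ((↑) : V → Completion V)) := by
    rw [(Completion.denseRange_coe (α := V)).closure_range]
    exact Set.mem_univ z
  obtain ⟨u, hu, hlim⟩ := mem_closure_iff_seq_limit.1 hz
  choose v hv using hu
  have huv : (fun k => ((v k : V) : Completion V)) = u := funext hv
  refine ⟨v, ?_, huv ▸ hlim⟩
  have hc : CauchySeq (fun k => ((v k : V) : Completion V)) := by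
    rw [huv]
    exact hlim.cauchySeq
  have h1 : Cauchy (Filter.map ((↑) : V → Completion V) (Filter.map v Filter.atTop)) := by
    rw [Filter.map_map]
    exact hc
  exact (Completion.isUniformInducing_coe V).cauchy_map_iff.1 h1

/-! ## The abstract spectral theorem -/

/-- **Abstract spectral theorem** on a pre-Hilbert space (the statement of
`Fermat.Agent.LT.T2.AbstractSpectral`, written out). -/
theorem abstractSpectral781 (V : Type) [NormedAddCommGroup V] [InnerProductSpace ℂ V]
    (𝒜 𝒞 : Set (V →ₗ[ℂ] V))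
    (hCA : 𝒞 ⊆ 𝒜)
    (hcomm : ∀ A ∈ 𝒜, ∀ B ∈ 𝒜, A ∘ₗ B = B ∘ₗ A)
    (hadj : ∀ A ∈ 𝒜, ∃ B ∈ 𝒜, ∀ x y : V, inner ℂ (A x) y = inner ℂ x (B y))
    (hbdd : ∀ A ∈ 𝒜, ∃ C : ℝ, ∀ x : V, ‖A x‖ ≤ C * ‖x‖)
    (hHS : ∀ A ∈ 𝒞, ∃ C : ℝ, ∀ (n : ℕ) (x : Fin n → V), Orthonormal ℂ x →
      ∑ i, ‖A (x i)‖ ^ 2 ≤ C)
    (hreg : ∀ A ∈ 𝒞, ∀ x : ℕ → V, CauchySeq x →
      ∃ y : V, Filter.Tendsto (fun k => A (x k)) Filter.atTop (nhds y))
    (hnd : ∀ x : V, ∀ ε : ℝ, 0 < ε → ∃ A ∈ 𝒞, ‖A x - x‖ < ε) :
    ∃ (ι : Type) (e : ι → V), Orthonormal ℂ e ∧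
      (∀ A ∈ 𝒜, ∀ i, ∃ c : ℂ, A (e i) = c • e i) ∧
      ∀ x : V, HasSum (fun i => ‖inner ℂ (e i) x‖ ^ 2) (‖x‖ ^ 2) := by
  classical
  -- the families of operators of the completion
  set 𝒯 : Set (Completion V →L[ℂ] Completion V) := op781 '' 𝒜 with h𝒯
  set Kc : Set (Completion V →L[ℂ] Completion V) := op781 '' 𝒞 with hKc
  have hcoe : ∀ A ∈ 𝒜, ∀ x : V, op781 A (x : Completion V) = ((A x : V) : Completion V) :=
    fun A hA x => op781_coe (hbdd A hA) x
  have hcomm' : ∀ S ∈ 𝒯, ∀ T ∈ 𝒯, S * T = T * S := by
    rintro _ ⟨A, hA, rfl⟩ _ ⟨B, hB, rfl⟩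
    refine ext781_mul _ _ fun x => ?_
    rw [toC781_apply (hbdd A hA), toC781_apply (hbdd B hB), toC781_apply (hbdd A hA),
      toC781_apply (hbdd B hB)]
    exact congrArg (fun f : V →ₗ[ℂ] V => f x) (hcomm A hA B hB)
  have hadj' : ∀ A ∈ 𝒜, ∀ B ∈ 𝒜, (∀ x y : V, inner ℂ (A x) y = inner ℂ x (B y)) →
      adjoint (op781 A) = op781 B := by
    intro A hA B hB h
    refine ext781_adjoint _ _ fun x y => ?_
    rw [toC781_apply (hbdd A hA), toC781_apply (hbdd B hB)]
    exact h x y
  have hstar : ∀ T ∈ 𝒯, adjoint T ∈ 𝒯 := by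
    rintro _ ⟨A, hA, rfl⟩
    obtain ⟨B, hB, h⟩ := hadj A hA
    exact ⟨B, hB, (hadj' A hA B hB h).symm⟩
  have hK : Kc ⊆ 𝒯 := Set.image_mono hCA
  have hcpt : ∀ k ∈ Kc, IsCompactOperator k := by
    rintro _ ⟨A, hA, rfl⟩
    obtain ⟨C, hC⟩ := hHS A hA
    refine isCompactOperator_ext781 (toC781 A) C fun n x hx => ?_
    simpa only [toC781_apply (hbdd A (hCA hA))] using hC n x hx
  have hnd' : ∀ z : Completion V, (∀ k ∈ Kc, k z = 0) → z = 0 := by
    intro z hz
    refine eq_zero_of_orth781 z fun v => ?_
    -- `z` is orthogonal to the range of every operator of `𝒞`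
    have h1 : ∀ A ∈ 𝒞, inner ℂ z (((A v : V)) : Completion V) = 0 := by
      intro A hA
      have hT : op781 A ∈ 𝒯 := ⟨A, hCA hA, rfl⟩
      have hn : adjoint (op781 A) * op781 A = op781 A * adjoint (op781 A) :=
        hcomm' _ (hstar _ hT) _ hT
      have h0 : adjoint (op781 A) z = 0 := by
        have := Fermat.Agent.LT.H751.adjoint_apply_of_eigen751 (op781 A) hn z 0
          (by rw [hz _ ⟨A, hA, rfl⟩, zero_smul])
        simpa using this
      rw [← hcoe A (hCA hA) v, ← adjoint_inner_left, h0, inner_zero_left]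
    have h2 : ∀ δ : ℝ, 0 < δ → ‖inner ℂ z (v : Completion V)‖ ≤ 0 + δ := by
      intro δ hδ
      have hpos : 0 < δ / (‖z‖ + 1) := div_pos hδ (by positivity)
      obtain ⟨A, hA, hAv⟩ := hnd v _ hpos
      have h3 : inner ℂ z (v : Completion V)
          = inner ℂ z (((v - A v : V)) : Completion V) := by
        rw [Completion.coe_sub, inner_sub_right, h1 A hA, sub_zero]
      rw [h3, zero_add]
      calc ‖inner ℂ z (((v - A v : V)) : Completion V)‖
          ≤ ‖z‖ * ‖(((v - A v : V)) : Completion V)‖ := norm_inner_le_norm _ _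
        _ = ‖z‖ * ‖A v - v‖ := by rw [Completion.norm_coe, norm_sub_rev]
        _ ≤ ‖z‖ * (δ / (‖z‖ + 1)) := by gcongr
        _ ≤ δ := by
            rw [mul_div_assoc']
            rw [div_le_iff₀ (by positivity)]
            nlinarith [norm_nonneg z]
    exact norm_le_zero_iff.1 (le_of_forall_pos_le_add h2)
  -- the joint eigenbasis of the completion
  obtain ⟨ι, b, hb⟩ :=
    Fermat.Agent.LT.H751.exists_hilbertBasis_joint_eigen751 𝒯 Kc hcomm' hstar hK hcpt hnd'
  -- the eigenvectors lie in `V`
  have hV : ∀ i : ι, ∃ y : V, ((y : V) : Completion V) = b i := by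
    intro i
    have hbi : b i ≠ 0 := b.orthonormal.ne_zero i
    obtain ⟨k, hk, hkb⟩ : ∃ k ∈ Kc, k (b i) ≠ 0 := by
      by_contra h
      push Not at h
      exact hbi (hnd' _ h)
    obtain ⟨A, hA, rfl⟩ := hk
    obtain ⟨c, hc⟩ := hb i _ (hK ⟨A, hA, rfl⟩)
    have hc0 : c ≠ 0 := by
      rintro rfl
      exact hkb (by rw [hc, zero_smul])
    obtain ⟨v, hvC, hvlim⟩ := exists_seq781 (b i)
    obtain ⟨y, hy⟩ := hreg A hA v hvC
    have h1 : Filter.Tendsto (fun k => ((A (v k) : V) : Completion V)) Filter.atTop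
        (nhds ((y : V) : Completion V)) :=
      ((Completion.continuous_coe V).tendsto y).comp hy
    have h2 : Filter.Tendsto (fun k => ((A (v k) : V) : Completion V)) Filter.atTop
        (nhds (op781 A (b i))) := by
      have := ((op781 A).continuous.tendsto (b i)).comp hvlim
      refine this.congr fun k => ?_
      exact hcoe A (hCA hA) (v k)
    have h3 : ((y : V) : Completion V) = c • b i := by
      rw [← hc]
      exact tendsto_nhds_unique h1 h2
    refine ⟨c⁻¹ • y, ?_⟩
    rw [Completion.coe_smul, h3, smul_smul, inv_mul_cancel₀ hc0, one_smul]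
  choose e he using hV
  have hinner : ∀ i (x : V), inner ℂ (e i) x = inner ℂ (b i) (x : Completion V) := by
    intro i x
    rw [← he i, Completion.inner_coe]
  refine ⟨ι, e, ?_, ?_, ?_⟩
  · rw [orthonormal_iff_ite]
    intro i j
    rw [hinner, he j]
    exact orthonormal_iff_ite.1 b.orthonormal i j
  · intro A hA i
    obtain ⟨c, hc⟩ := hb i _ ⟨A, hA, rfl⟩
    refine ⟨c, Completion.coe_injective V ?_⟩
    rw [← hcoe A hA, he i, hc, Completion.coe_smul, he i]
  · intro x
    have h1 := b.hasSum_inner_mul_inner (x : Completion V) (x : Completion V)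
    have h2 : (fun i => inner ℂ (x : Completion V) (b i) * inner ℂ (b i) (x : Completion V))
        = fun i => (((‖inner ℂ (e i) x‖ ^ 2 : ℝ)) : ℂ) := by
      funext i
      rw [hinner, ← inner_conj_symm (x : Completion V) (b i), Complex.conj_mul']
      push_cast
      rfl
    have h3 : inner ℂ (x : Completion V) (x : Completion V) = (((‖x‖ ^ 2 : ℝ)) : ℂ) := by
      rw [Completion.inner_coe, inner_self_eq_norm_sq_to_K]
      push_cast
      rfl
    rw [h2, h3] at h1
    exact Complex.hasSum_ofReal.1 h1

end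

end Fermat.Agent.LT.T2.H781
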