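import Fermat.Agent.LT.T2.Spec
import Fermat.Agent.LT.T2.H781.AbsSpec

/-!
# Row LT, tower T2, leaf T2.08 (registry 872): `T2.Leaf08` (helper781)

OFF-MAIN.  `leaf08_781 : Fermat.Agent.LT.T2.Leaf08`, i.e. `T2.AbstractSpectral` of the Spec of
helper130 (`LT/T2/Spec.lean`, sha256 1b305586..., byte-identical copy), from
`abstractSpectral781` (`LT/T2/H781/AbsSpec.lean`, Mathlib + asset helper751).
-/

set_option autoImplicit false

namespace Fermat.Agent.LT.T2.H781

/-- **T2.08**: the abstract spectral theorem of the Spec. -/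
theorem abstractSpectral_spec781 : Fermat.Agent.LT.T2.AbstractSpectral :=
  fun V _ _ 𝒜 𝒞 hCA hcomm hadj hbdd hHS hreg hnd =>
    abstractSpectral781 V 𝒜 𝒞 hCA hcomm hadj hbdd hHS hreg hnd

/-- **T2.08** in the form of the registry. -/
theorem leaf08_781 : Fermat.Agent.LT.T2.Leaf08 := abstractSpectral_spec781

end Fermat.Agent.LT.T2.H781
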